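/-
S26 / block G (Theorem B, pure field theory, Mathlib only; architect helper187).
LEAF G-24.  `Ω` is finite over `ratioField (span (1, y))` if `y` is a transcendence basis and `Ω = ratioField V`, `V` f.d.
Proof.  `E := ratioField Y ⊇ IntermediateField.adjoin K (range y)` (`y i = y i / 1`).  `Ω` is algebraic over
`adjoin K (range y)` (`IsTranscendenceBasis.isAlgebraic_field`), hence over `E` (`Algebra.IsAlgebraic.tower_top`-type lemma
along `IntermediateField.inclusion`, or elementwise `IsAlgebraic.tower_top`/`IsIntegral.tower_top`).  `V = span K s`, `s` finite;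
`⊤ = ratioField V = adjoin K S`, `S := (· / v0) '' s` (`ratioField_span_eq_adjoin_div`).  `IntermediateField.finiteDimensional_adjoin`
for `adjoin E S`, and `adjoin E S = ⊤` (`IntermediateField.restrictScalars_eq_top_iff`, `adjoin_adjoin_left`, or directly);
`IntermediateField.topEquiv`.  Model: `Fermat.Agent.S24.CL.finiteDimensional_of_isUniformization`
(Fermat/Agent/S24/CL/Degree.lean, read only: do not import).
-/
import Fermat.Agent.S26.G.Ratio.Adjoin

set_option autoImplicit false

universe u

namespace Fermat.Agent.S26.G

open Module IntermediateField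

variable {K Ω : Type u} [Field K] [Field Ω] [Algebra K Ω]

theorem finiteDimensional_ratioField_span {g : ℕ} (y : Fin g → Ω)
    (hy : IsTranscendenceBasis K y) (V : Submodule K Ω) [FiniteDimensional K V]
    (hgen : ratioField V = ⊤) {v0 : Ω} (hv0 : v0 ∈ V) (h0 : v0 ≠ 0) :
    FiniteDimensional (ratioField (Submodule.span K (insert (1 : Ω) (Set.range y)))) Ω := by
  set E : IntermediateField K Ω := ratioField (Submodule.span K (insert (1 : Ω) (Set.range y)))
    with hE
  -- `K(y) ≤ E`
  have hle : IntermediateField.adjoin K (Set.range y) ≤ E := by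
    rw [IntermediateField.adjoin_le_iff]
    rintro _ ⟨i, rfl⟩
    have h1 : y i / 1 ∈ E :=
      div_mem_ratioField_of_mem
        (Submodule.subset_span (Set.mem_insert_of_mem _ (Set.mem_range_self i)))
        (Submodule.subset_span (Set.mem_insert _ _))
    rwa [div_one] at h1
  -- every element is integral over `E`
  have hint : ∀ x : Ω, IsIntegral E x := by
    intro x
    have halg : Algebra.IsAlgebraic (IntermediateField.adjoin K (Set.range y)) Ω :=
      hy.isAlgebraic_field
    obtain ⟨p, hp, hpx⟩ := (halg.isAlgebraic x).isIntegral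
    refine ⟨p.map (IntermediateField.inclusion hle).toRingHom, hp.map _, ?_⟩
    rw [Polynomial.eval₂_map]
    exact hpx
  -- generators
  obtain ⟨s, hs⟩ := (Submodule.fg_iff_finiteDimensional V).2 inferInstance
  have hv0' : v0 ∈ Submodule.span K (s : Set Ω) := by rw [hs]; exact hv0
  have hgen' : IntermediateField.adjoin K ((fun x => x / v0) '' (s : Set Ω)) = ⊤ := by
    rw [← ratioField_span_eq_adjoin_div (s : Set Ω) hv0' h0, hs, hgen]
  have hfin : Finite ((fun x => x / v0) '' (s : Set Ω)) := (s.finite_toSet.image _).to_subtype
  have h1 : FiniteDimensional E (IntermediateField.adjoin E ((fun x => x / v0) '' (s : Set Ω))) :=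
    IntermediateField.finiteDimensional_adjoin (fun x _ => hint x)
  have h2 : IntermediateField.adjoin E ((fun x => x / v0) '' (s : Set Ω)) = ⊤ := by
    rw [← IntermediateField.restrictScalars_eq_top_iff (K := K), eq_top_iff, ← hgen',
      IntermediateField.adjoin_le_iff]
    intro x hx
    exact IntermediateField.subset_adjoin E _ hx
  rw [h2] at h1
  exact (IntermediateField.topEquiv (F := E) (E := Ω)).toLinearEquiv.finiteDimensional

end Fermat.Agent.S26.G
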