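/-
S26 / block G (Theorem B, pure field theory, Mathlib only; architect helper187).
LEAF G-25.  Iteration of `a V W ≤ Y ^ D W`.
Proof.  Induction on `m` in the commutative semiring `Submodule K Ω` (`mul_comm`, `mul_assoc`, `mul_left_comm`,
`pow_succ`, `Nat.mul_succ`, `pow_add`, `Submodule.span_mul_span`, `Set.singleton_mul_singleton`, `mul_le_mul'`/`Submodule.mul_le_mul`):
`a^(m+1) V^(m+1) W = (a V) (a^m V^m W) ≤ (a V) (Y^(D m) W) = Y^(D m) (a V W) ≤ Y^(D m) Y^D W`.
-/
import Fermat.Agent.S26.G.Basic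

set_option autoImplicit false

universe u

namespace Fermat.Agent.S26.G

open Module IntermediateField

variable {K Ω : Type u} [Field K] [Field Ω] [Algebra K Ω]

theorem iter_mul_le {a : Ω} {D : ℕ} (Y V W : Submodule K Ω)
    (h : Submodule.span K {a} * (V * W) ≤ Y ^ D * W) (m : ℕ) :
    Submodule.span K {a ^ m} * (V ^ m * W) ≤ Y ^ (D * m) * W := by
  induction m with
  | zero =>
    rw [pow_zero, pow_zero, Nat.mul_zero, pow_zero, ← Submodule.one_eq_span, one_mul]
  | succ m ih =>
    have e1 : Submodule.span K {a ^ (m + 1)} * (V ^ (m + 1) * W) =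
        (Submodule.span K {a} * V) * (Submodule.span K {a ^ m} * (V ^ m * W)) := by
      rw [pow_succ a, ← Set.singleton_mul_singleton, ← Submodule.span_mul_span, pow_succ V]
      ac_rfl
    have e2 : (Submodule.span K {a} * V) * (Y ^ (D * m) * W) =
        Y ^ (D * m) * (Submodule.span K {a} * (V * W)) := by
      ac_rfl
    have e3 : Y ^ (D * (m + 1)) * W = Y ^ (D * m) * (Y ^ D * W) := by
      rw [Nat.mul_succ, pow_add, mul_assoc]
    rw [e1, e3]
    calc _ ≤ (Submodule.span K {a} * V) * (Y ^ (D * m) * W) := mul_le_mul' le_rfl ih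
      _ = _ := e2
      _ ≤ _ := mul_le_mul' le_rfl h

end Fermat.Agent.S26.G
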