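/-
S26 / block G (Theorem B, pure field theory, Mathlib only; architect helper187).
LEAF G-23.  `dim (span (1, y_1 .. y_g)) ^ M ≤ (M + 1) ^ g`.
Proof.  Let `T M := (Fintype.piFinset fun _ : Fin g => Finset.range (M + 1)).image fun a => ∏ i, y i ^ a i`.
Show `Y ^ M ≤ span K (T M)` by induction on `M` (`pow_succ`, `Submodule.span_mul_span`, `Submodule.span_le`,
`Set.mem_mul`): a monomial with exponents `≤ M` times `1` or `y i` is a monomial with exponents `≤ M + 1`
(`Function.update a i (a i + 1)`, `Finset.prod_update_of_mem`, or `a + Pi.single i 1` and `Finset.prod_mul_distrib`, `pow_add`).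
Then `Submodule.finrank_mono`, `finrank_span_finset_le_card`, `Finset.card_image_le`, `Fintype.card_piFinset`,
`Finset.prod_const`, `Finset.card_range`.
-/
import Fermat.Agent.S26.G.Basic

set_option autoImplicit false

universe u

namespace Fermat.Agent.S26.G

open Module IntermediateField

variable {K Ω : Type u} [Field K] [Field Ω] [Algebra K Ω]

/-- the finite set of monomials with all exponents `≤ M`. -/
private noncomputable def monoT {g : ℕ} (y : Fin g → Ω) (M : ℕ) : Finset Ω := by
  classical
  exact (Fintype.piFinset fun _ : Fin g => Finset.range (M + 1)).image fun a => ∏ i, y i ^ a i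

private theorem mem_monoT {g : ℕ} (y : Fin g → Ω) (M : ℕ) (z : Ω) :
    z ∈ monoT y M ↔ ∃ a : Fin g → ℕ, (∀ i, a i ≤ M) ∧ ∏ i, y i ^ a i = z := by
  classical
  unfold monoT
  simp only [Finset.mem_image, Fintype.mem_piFinset, Finset.mem_range, Nat.lt_succ_iff]

private theorem card_monoT_le {g : ℕ} (y : Fin g → Ω) (M : ℕ) :
    (monoT y M).card ≤ (M + 1) ^ g := by
  classical
  unfold monoT
  refine Finset.card_image_le.trans ?_
  rw [Fintype.card_piFinset]
  simp

private theorem pow_le_span_monoT {g : ℕ} (y : Fin g → Ω) (M : ℕ) :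
    (Submodule.span K (insert (1 : Ω) (Set.range y))) ^ M ≤
      Submodule.span K (monoT y M : Set Ω) := by
  classical
  induction M with
  | zero =>
    rw [pow_zero, Submodule.one_eq_span]
    refine Submodule.span_mono ?_
    rintro z hz
    rw [Set.mem_singleton_iff] at hz
    rw [Finset.mem_coe, mem_monoT]
    exact ⟨fun _ => 0, fun _ => le_rfl, by simp [hz]⟩
  | succ M ih =>
    rw [pow_succ]
    refine (mul_le_mul' ih le_rfl).trans ?_
    rw [Submodule.span_mul_span, Submodule.span_le]
    rintro z hz
    obtain ⟨m, hm, w, hw, rfl⟩ := Set.mem_mul.mp hz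
    rw [Finset.mem_coe, mem_monoT] at hm
    obtain ⟨a, ha, rfl⟩ := hm
    refine Submodule.subset_span ?_
    rw [Finset.mem_coe, mem_monoT]
    rcases hw with hw | ⟨i, rfl⟩
    · refine ⟨a, fun i => (ha i).trans (Nat.le_succ M), ?_⟩
      rw [hw, mul_one]
    · refine ⟨a + Pi.single i 1, fun j => ?_, ?_⟩
      · have h1 : (Pi.single i 1 : Fin g → ℕ) j ≤ 1 := by
          by_cases hji : j = i
          · subst hji; simp
          · simp [Pi.single_eq_of_ne hji]
        have := ha j
        simp only [Pi.add_apply]
        omega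
      · simp only [Pi.add_apply, pow_add, Finset.prod_mul_distrib]
        congr 1
        rw [Finset.prod_eq_single i]
        · simp
        · intro j _ hji
          simp [Pi.single_eq_of_ne hji]
        · intro h
          exact absurd (Finset.mem_univ i) h

theorem finrank_span_pow_le {g : ℕ} (y : Fin g → Ω) (M : ℕ) :
    Module.finrank K ↥((Submodule.span K (insert (1 : Ω) (Set.range y))) ^ M) ≤ (M + 1) ^ g := by
  have : Module.Finite K ↥(Submodule.span K (monoT y M : Set Ω)) :=
    Module.Finite.span_finset K (monoT y M)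
  calc Module.finrank K ↥((Submodule.span K (insert (1 : Ω) (Set.range y))) ^ M)
      ≤ Module.finrank K ↥(Submodule.span K (monoT y M : Set Ω)) :=
        Submodule.finrank_mono (pow_le_span_monoT y M)
    _ ≤ (monoT y M).card := finrank_span_finset_le_card _
    _ ≤ (M + 1) ^ g := card_monoT_le y M

end Fermat.Agent.S26.G
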