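/-
S26 / block G (Theorem B, pure field theory, Mathlib only; architect helper187).
ASSEMBLY G-26 (G1c).  `H_V m ≤ C m ^ g` for `m ≥ 1`.
Proof.  `Y := span K (insert 1 (range y))`, `E := ratioField Y`, `finiteDimensional_ratioField_span`;
`β := Module.finBasis E Ω` (as a function `Fin δ → Ω`, `δ = finrank E Ω > 0`), `W := span K (range β)`, `P := V * W`
(`finiteDimensional_mul`); every element of `Ω` is in `span E (range β)` (`Basis.span_eq`, `Submodule.mem_top`).
`exists_mul_le_pow_mul Y β P` gives `D`, `a ≠ 0`; `iter_mul_le`.  With `w0 := β ⟨0, _⟩ ≠ 0` (`Basis.ne_zero`):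
`span {a ^ m * w0} * V ^ m ≤ span {a ^ m} * (V ^ m * W) ≤ Y ^ (D * m) * W`, so
`H_V m ≤ (D * m + 1) ^ g * δ` (`finrank_span_singleton_mul`, `Submodule.finrank_mono`, `finrank_mul_le`, `finrank_span_pow_le`,
`finrank_range_le_card`), and `D * m + 1 ≤ (D + 1) * m` for `m ≥ 1`.  `C := (D + 1) ^ g * δ`.
-/
import Fermat.Agent.S26.G.Hilb.Func
import Fermat.Agent.S26.G.Gen
import Fermat.Agent.S26.G.Up.Mono
import Fermat.Agent.S26.G.Up.Fin
import Fermat.Agent.S26.G.Up.Iter

set_option autoImplicit false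

universe u

namespace Fermat.Agent.S26.G

open Module IntermediateField

variable {K Ω : Type u} [Field K] [Field Ω] [Algebra K Ω]

/-- **G1c.** -/
theorem exists_hilb_le {g : ℕ} (y : Fin g → Ω) (hy : IsTranscendenceBasis K y)
    (V : Submodule K Ω) [FiniteDimensional K V] (hgen : ratioField V = ⊤) {v0 : Ω}
    (hv0 : v0 ∈ V) (h0 : v0 ≠ 0) : ∃ C : ℕ, ∀ m, 1 ≤ m → hilb V m ≤ C * m ^ g := by
  set Y : Submodule K Ω := Submodule.span K (insert (1 : Ω) (Set.range y)) with hY
  have hfd : FiniteDimensional (ratioField Y) Ω :=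
    finiteDimensional_ratioField_span y hy V hgen hv0 h0
  set δ : ℕ := Module.finrank (ratioField Y) Ω with hδ
  have hδpos : 0 < δ := Module.finrank_pos
  let b : Basis (Fin δ) (ratioField Y) Ω := Module.finBasis (ratioField Y) Ω
  let β : Fin δ → Ω := fun i => b i
  set W : Submodule K Ω := Submodule.span K (Set.range β) with hW
  have hWfd : FiniteDimensional K W := FiniteDimensional.span_of_finite K (Set.finite_range β)
  have hPfd : FiniteDimensional K ↥(V * W) := finiteDimensional_mul V W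
  have hspan : ∀ x ∈ V * W, x ∈ Submodule.span (ratioField Y) (Set.range β) := by
    intro x _
    have : Submodule.span (ratioField Y) (Set.range β) = ⊤ := b.span_eq
    rw [this]
    exact Submodule.mem_top
  obtain ⟨D, a, -, ha0, hle⟩ := exists_mul_le_pow_mul Y β (V * W) hspan
  have hw0 : β ⟨0, hδpos⟩ ≠ 0 := b.ne_zero _
  have hw0W : β ⟨0, hδpos⟩ ∈ W := Submodule.subset_span ⟨_, rfl⟩
  have hWrank : Module.finrank K W ≤ δ := by
    have := finrank_range_le_card (R := K) β
    simpa [Set.finrank, hW] using this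
  refine ⟨(D + 1) ^ g * δ, fun m hm => ?_⟩
  have hiter := iter_mul_le Y V W hle m
  have hYfd : FiniteDimensional K Y :=
    FiniteDimensional.span_of_finite K ((Set.finite_range y).insert 1)
  have hYpow : FiniteDimensional K ↥(Y ^ (D * m)) := finiteDimensional_pow Y (D * m)
  have hYW : FiniteDimensional K ↥(Y ^ (D * m) * W) := finiteDimensional_mul _ _
  have hsub : Submodule.span K {a ^ m * β ⟨0, hδpos⟩} * V ^ m ≤ Y ^ (D * m) * W := by
    refine le_trans ?_ hiter
    intro x hx
    obtain ⟨v, hv, rfl⟩ := mem_span_singleton_mul.1 hx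
    refine mem_span_singleton_mul.2 ⟨v * β ⟨0, hδpos⟩, Submodule.mul_mem_mul hv hw0W, ?_⟩
    ring
  calc hilb V m = Module.finrank K ↥(V ^ m) := rfl
    _ = Module.finrank K ↥(Submodule.span K {a ^ m * β ⟨0, hδpos⟩} * V ^ m) :=
        (finrank_span_singleton_mul (mul_ne_zero (pow_ne_zero m ha0) hw0) (V ^ m)).symm
    _ ≤ Module.finrank K ↥(Y ^ (D * m) * W) := Submodule.finrank_mono hsub
    _ ≤ Module.finrank K ↥(Y ^ (D * m)) * Module.finrank K W := finrank_mul_le _ _
    _ ≤ (D * m + 1) ^ g * δ := Nat.mul_le_mul (finrank_span_pow_le y (D * m)) hWrank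
    _ ≤ ((D + 1) * m) ^ g * δ := by
        refine Nat.mul_le_mul_right δ (Nat.pow_le_pow_left ?_ g)
        nlinarith
    _ = (D + 1) ^ g * δ * m ^ g := by rw [mul_pow]; ring

end Fermat.Agent.S26.G
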